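import Fermat.Agent.ThreePrimesClasses.Arcs
import Fermat.Agent.ThreePrimes.Main

/-!
# The primes of one class near the fractions `j / Q`

If every prime up to `W` divides `Q` then, for large `X` and `|β| ≤ 1 / (2 Q)`, the sum of
`φ(Q) log p e (p β)` over the primes `p ≤ X` in a reduced class modulo `Q` differs from
`∑_{n ≤ X} e (n β)` by at most a constant times `X / W`.
-/

set_option autoImplicit false

noncomputable section

namespace FA.ShiftedPrimeDifferences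

open Finset Filter ArithmeticFunction
open FA.ThreePrimes (eAdd geomSum nearDist arcCentres centre powerPart trigSum)
open FA.ThreePrimesClasses (classTwist classFactor classLambda)
open scoped Real

/-- The primes up to `X` in the class of `a` modulo `Q`. -/
def classPrimes (Q a X : ℕ) : Finset ℕ :=
  (Icc 1 X).filter fun n => n.Prime ∧ n % Q = a % Q

theorem mem_classPrimes {Q a X n : ℕ} :
    n ∈ classPrimes Q a X ↔ n ≤ X ∧ n.Prime ∧ n % Q = a % Q := by
  rw [classPrimes, mem_filter, mem_Icc]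
  exact ⟨fun h => ⟨h.1.2, h.2⟩, fun h => ⟨⟨h.2.1.one_le, h.1⟩, h.2⟩⟩

/-- `∑ log p e (p x)` over them. -/
def primeTwist (Q a X : ℕ) (x : ℝ) : ℂ :=
  ∑ n ∈ classPrimes Q a X, (Real.log n : ℂ) * eAdd (n * x)

theorem norm_classTwist_sub_primeTwist_le (Q a : ℕ) {X : ℕ} (hX : 1 ≤ X) (x : ℝ) :
    ‖classTwist Q a X x - primeTwist Q a X x‖ ≤ 2 * √(X : ℝ) * Real.log X := by
  rw [primeTwist, classPrimes, sum_filter, classTwist, trigSum, ← sum_sub_distrib]
  refine (norm_sum_le _ _).trans ((sum_le_sum fun n _ => ?_).trans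
    (ThreePrimes.sum_powerPart_le hX))
  by_cases hp : n.Prime
  · by_cases hc : n % Q = a % Q
    · rw [classLambda, if_pos hc, if_pos ⟨hp, hc⟩, vonMangoldt_apply_prime hp, sub_self,
        norm_zero]
      exact ThreePrimes.powerPart_nonneg n
    · rw [classLambda, if_neg hc, if_neg fun h => hc h.2]
      simpa using ThreePrimes.powerPart_nonneg n
  · rw [if_neg fun h => hp h.1, sub_zero, norm_mul, ThreePrimes.norm_eAdd, mul_one,
      Complex.norm_real, Real.norm_eq_abs,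
      abs_of_nonneg (ThreePrimesClasses.classLambda_nonneg Q a n), powerPart, if_neg hp]
    exact ThreePrimesClasses.classLambda_le Q a n

theorem classTwist_sub_intCast (Q a X : ℕ) (x : ℝ) (k : ℤ) :
    classTwist Q a X (x - k) = classTwist Q a X x := by
  rw [classTwist, classTwist, trigSum, trigSum]
  refine sum_congr rfl fun n _ => congrArg _ ?_
  rw [mul_sub, show (n : ℝ) * (k : ℝ) = (((n : ℤ) * k : ℤ) : ℝ) by push_cast; ring,
    sub_eq_add_neg, ← Int.cast_neg, ThreePrimes.eAdd_add_intCast]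

theorem norm_geomSum_le_card (X : ℕ) (x : ℝ) : ‖geomSum X x‖ ≤ X := by
  rw [geomSum]
  refine (norm_sum_le _ _).trans (le_of_eq ?_)
  simp [ThreePrimes.norm_eAdd]

theorem norm_geomSum_le_inv (X : ℕ) {x δ : ℝ} (hδ : 0 < δ) (h : δ ≤ nearDist x) :
    ‖geomSum X x‖ ≤ 1 / (2 * δ) :=
  (ThreePrimes.norm_geom_le x 0 X).trans (ThreePrimes.clip_le_inv hδ h)

/-- A fraction whose denominator does not divide `Q` has a small coefficient. -/
theorem totient_mul_norm_classFactor_le {Q a q r W : ℕ} (hQ : 0 < Q) (hq : 0 < q)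
    (hr : q.Coprime r) (ha : a.Coprime Q) (hW : ∀ p : ℕ, p.Prime → p ≤ W → p ∣ Q)
    (hW0 : 0 < W) (hqQ : ¬ q ∣ Q) : (Q.totient : ℝ) * ‖classFactor Q a q r‖ ≤ 1 / W := by
  by_cases hc : (q / q.gcd Q).Coprime Q
  swap
  · rw [ThreePrimesClasses.classFactor_eq_zero hQ hq hr ha hc, norm_zero, mul_zero]
    positivity
  obtain ⟨d, hd⟩ : ∃ d, d = q / q.gcd Q := ⟨_, rfl⟩
  rw [← hd] at hc
  have hqe : q.gcd Q * d = q := by rw [hd, Nat.mul_div_cancel' (Nat.gcd_dvd_left q Q)]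
  have hd0 : 0 < d := Nat.pos_of_mul_pos_left (hqe.symm ▸ hq)
  obtain ⟨b, hb⟩ := ThreePrimesClasses.exists_class_inverse hQ hc a
  have key := ThreePrimesClasses.classFactor_eq (g := q.gcd Q) hQ hd0 (Nat.gcd_dvd_right q Q) hc
    (hqe.symm ▸ hr) ha hb
  rw [hqe] at key
  have hd1 : d ≠ 1 := fun h => hqQ (by
    rw [h, mul_one] at hqe
    exact hqe ▸ Nat.gcd_dvd_right q Q)
  have hp := Nat.minFac_prime hd1
  have hWp : W < d.minFac := lt_of_not_ge fun h =>
    hp.one_lt.ne' (Nat.eq_one_of_dvd_coprimes hc (Nat.minFac_dvd d) (hW _ hp h))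
  have hWd : (W : ℝ) ≤ d.totient := by
    have h1 := Nat.le_of_dvd (Nat.totient_pos.2 hd0)
      (Nat.totient_dvd_of_dvd (Nat.minFac_dvd d))
    rw [Nat.totient_prime hp] at h1
    exact Nat.cast_le.2 (by omega)
  have hφ : (0 : ℝ) < Q.totient := Nat.cast_pos.2 (Nat.totient_pos.2 hQ)
  have hW0' : (0 : ℝ) < W := Nat.cast_pos.2 hW0
  rw [key, norm_mul, ThreePrimes.norm_eAdd, mul_one, Complex.norm_real, Real.norm_eq_abs, abs_div,
    abs_mul, Nat.abs_cast, Nat.abs_cast]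
  calc (Q.totient : ℝ) * (|ThreePrimes.moebiusR d| / (Q.totient * d.totient))
      = |ThreePrimes.moebiusR d| / d.totient := by field_simp
    _ ≤ 1 / W := div_le_div₀ zero_le_one (ThreePrimes.abs_moebiusR_le d) hW0' hWd

theorem eventually_conditions (K : ℝ) :
    ∀ᶠ X : ℕ in atTop, K ≤ Real.log X ∧ Real.log X ^ 22 ≤ (X : ℝ) := by
  refine ((Real.tendsto_log_atTop.comp tendsto_natCast_atTop_atTop).eventually_ge_atTop K).and ?_
  have h := (Real.isLittleO_pow_log_id_atTop (n := 22)).bound one_pos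
  refine ((tendsto_natCast_atTop_atTop (R := ℝ)).eventually h).mono fun X hX => ?_
  rw [one_mul, Real.norm_eq_abs, Real.norm_eq_abs, id, Nat.abs_cast] at hX
  exact (le_abs_self _).trans hX

/-- **The approximation near `j / Q`.** -/
theorem eventually_primeTwist_approx {Q a W : ℕ} (hQ : 0 < Q) (ha : a.Coprime Q)
    (hW : ∀ p : ℕ, p.Prime → p ≤ W → p ∣ Q) {η : ℝ} (hη : 0 < η) (hWη : 2 ≤ η * W) :
    ∀ᶠ X : ℕ in atTop, ∀ β : ℝ, |β| ≤ 1 / (2 * (Q : ℝ)) →
      ‖(Q.totient : ℂ) * primeTwist Q a X β - geomSum X β‖ ≤ η * X := by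
  obtain ⟨C₁, hC₁, hmin⟩ := ThreePrimesClasses.exists_class_minor 5
  obtain ⟨C₂, hC₂, hmaj⟩ := ThreePrimesClasses.exists_class_major 11 11
  obtain ⟨K, hK⟩ : ∃ K, K = C₁ + 72 * C₂ + 3 := ⟨_, rfl⟩
  have hW0 : 0 < W := by
    rcases Nat.eq_zero_or_pos W with h | h
    · rw [h, Nat.cast_zero, mul_zero] at hWη
      norm_num at hWη
    · exact h
  filter_upwards [eventually_conditions (4 * K * Q / η + (Q : ℝ) ^ 2 + 3),
    eventually_ge_atTop 2] with X hX hX2 β hβ
  obtain ⟨hl, hXl⟩ := hX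
  obtain ⟨l, hlr⟩ : ∃ l, l = Real.log X := ⟨_, rfl⟩
  rw [← hlr] at hl hXl
  have hQ1 : (1 : ℝ) ≤ Q := Nat.one_le_cast.2 hQ
  have hX0 : (0 : ℝ) < X := Nat.cast_pos.2 (by omega)
  have hK3 : 3 ≤ K := by linarith
  have hKQ : 0 ≤ 4 * K * Q / η := by positivity
  have hQl : (Q : ℝ) ^ 2 ≤ l := by linarith
  have hl3 : 3 ≤ l := by nlinarith
  have hl1 : 1 ≤ l := by linarith
  have hl0 : 0 < l := by linarith
  have hQl1 : (Q : ℝ) ≤ l := (le_self_pow₀ hQ1 two_ne_zero).trans hQl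
  obtain ⟨R, hR⟩ : ∃ R, R = l ^ 10 := ⟨_, rfl⟩
  have hlR : l ≤ R := hR ▸ le_self_pow₀ hl1 (by norm_num)
  have hR1 : 1 ≤ R := hl1.trans hlR
  have hQR : 3 * (Q : ℝ) * R ^ 2 ≤ X := by
    refine le_trans ?_ hXl
    calc 3 * (Q : ℝ) * R ^ 2 ≤ l * l * R ^ 2 := by gcongr
      _ = l ^ 22 := by rw [hR]; ring
  have hRX : R ≤ X := by nlinarith
  have hsmall : (K * Q) * (X / l) ≤ η / 4 * X := by
    have h1 : 4 * K * Q ≤ l * η := by
      rw [← div_le_iff₀ hη]
      nlinarith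
    rw [← mul_div_assoc, div_le_iff₀ hl0]
    nlinarith
  have hXl0 : 0 ≤ (X : ℝ) / l := by positivity
  have hφ : (Q.totient : ℝ) ≤ Q := Nat.cast_le.2 (Nat.totient_le Q)
  have hpow : 2 * √(X : ℝ) * l ≤ 2 * (X / l) := by
    have h11 : l ^ 2 ≤ √(X : ℝ) := by
      rw [Real.le_sqrt (by positivity) hX0.le, ← pow_mul]
      exact (pow_le_pow_right₀ hl1 (by norm_num)).trans hXl
    rw [mul_assoc]
    refine mul_le_mul_of_nonneg_left ?_ two_pos.le
    rw [le_div_iff₀ hl0, mul_assoc, ← sq]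
    exact (mul_le_mul_of_nonneg_left h11 (Real.sqrt_nonneg _)).trans_eq
      (Real.mul_self_sqrt hX0.le)
  have hstep : ‖(Q.totient : ℂ) * classTwist Q a X β - geomSum X β‖ ≤
      (K - 2) * Q * (X / l) + η / 2 * X →
      ‖(Q.totient : ℂ) * primeTwist Q a X β - geomSum X β‖ ≤ η * X := by
    intro h
    have h1 := norm_classTwist_sub_primeTwist_le Q a (show 1 ≤ X by omega) β
    rw [← hlr] at h1
    rw [show (Q.totient : ℂ) * primeTwist Q a X β - geomSum X β =
      ((Q.totient : ℂ) * classTwist Q a X β - geomSum X β) -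
        (Q.totient : ℂ) * (classTwist Q a X β - primeTwist Q a X β) by ring]
    refine (norm_sub_le _ _).trans ?_
    rw [norm_mul, Complex.norm_natCast]
    have h2 : (Q.totient : ℝ) * ‖classTwist Q a X β - primeTwist Q a X β‖ ≤ Q * (2 * (X / l)) :=
      mul_le_mul hφ (h1.trans hpow) (norm_nonneg _) (by linarith)
    nlinarith
  apply hstep
  have hgeom : R / X ≤ nearDist β → ‖geomSum X β‖ ≤ Q * (X / l) := by
    intro h
    refine (norm_geomSum_le_inv X (by positivity) h).trans ?_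
    rw [show 1 / (2 * (R / X)) = (X : ℝ) / (2 * R) by field_simp]
    refine (div_le_div_of_nonneg_left hX0.le hl0 (by linarith)).trans ?_
    exact le_mul_of_one_le_left hXl0 hQ1
  have hηX : 0 ≤ η / 2 * X := by positivity
  by_cases hmajor : ∃ z ∈ arcCentres (Q * ⌊R⌋₊), nearDist (β - centre z) ≤ R / X
  swap
  · push Not at hmajor
    have h1 := hmin Q a X β hQ (hlr ▸ hl1) (hlr ▸ hR ▸ hRX)
      (fun z hz => by
        rw [← hlr, show 2 * 5 = 10 by norm_num, ← hR] at hz ⊢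
        exact hmajor z hz)
    rw [← hlr, show (X : ℝ) * l ^ 4 / l ^ 5 = X / l by field_simp] at h1
    have h0 : (⟨1, 0⟩ : Σ _ : ℕ, ℕ) ∈ arcCentres (Q * ⌊R⌋₊) :=
      ThreePrimes.mem_arcCentres.2 ⟨⟨le_rfl, Nat.mul_pos hQ (Nat.floor_pos.2 hR1)⟩, one_pos,
        Nat.coprime_one_left 0⟩
    have h2 : R / X ≤ nearDist β := by simpa [centre] using (hmajor _ h0).le
    refine (norm_sub_le _ _).trans ?_
    rw [norm_mul, Complex.norm_natCast]
    have h3 : (Q.totient : ℝ) * ‖classTwist Q a X β‖ ≤ Q * (C₁ * (X / l)) :=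
      mul_le_mul hφ h1 (norm_nonneg _) (by linarith)
    nlinarith [hgeom h2, mul_nonneg (Nat.cast_nonneg (α := ℝ) Q) hXl0]
  obtain ⟨⟨q, r⟩, hz, hnd⟩ := hmajor
  rw [ThreePrimes.mem_arcCentres] at hz
  obtain ⟨⟨hq, hqP⟩, hrq, hcop⟩ := hz
  simp only at hq hqP hrq hcop
  have hq1 : (1 : ℝ) ≤ q := Nat.one_le_cast.2 hq
  have hqR : (q : ℝ) ≤ Q * R := by
    refine (Nat.cast_le.2 hqP).trans ?_
    push_cast
    exact mul_le_mul_of_nonneg_left (Nat.floor_le (by linarith)) (by linarith)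
  have hqQ : ((q * Q : ℕ) : ℝ) ≤ Real.log X ^ 11 := by
    rw [← hlr, pow_succ, ← hR]
    push_cast
    calc (q : ℝ) * Q ≤ Q * R * Q := mul_le_mul_of_nonneg_right hqR (by linarith)
      _ = R * (Q : ℝ) ^ 2 := by ring
      _ ≤ R * l := mul_le_mul_of_nonneg_left hQl (by linarith)
  obtain ⟨k, hk⟩ : ∃ k, k = round (β - centre ⟨q, r⟩) := ⟨_, rfl⟩
  obtain ⟨γ, hγ⟩ : ∃ γ : ℝ, γ = β - (r : ℝ) / q - (k : ℝ) := ⟨_, rfl⟩
  have hγR : |γ| ≤ R / X := by
    rw [nearDist, ← hk] at hnd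
    rw [hγ]
    exact hnd
  have htw : classTwist Q a X β = classTwist Q a X ((r : ℝ) / q + γ) := by
    rw [show (r : ℝ) / q + γ = β - (k : ℝ) by rw [hγ]; ring, classTwist_sub_intCast]
  have hmain : ‖(Q.totient : ℂ) * classTwist Q a X β -
      (Q.totient : ℂ) * (classFactor Q a q r * geomSum X γ)‖ ≤ Q * (72 * C₂ * (X / l)) := by
    rw [← mul_sub, norm_mul, Complex.norm_natCast, htw]
    refine mul_le_mul hφ ((hmaj Q a X q r γ hQ hq hX2 hqQ).trans ?_) (norm_nonneg _) (by linarith)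
    rw [← hlr, pow_succ, ← hR]
    have h1 : 1 + 2 * π * |γ| * X ≤ 72 * R := by
      have h2 : |γ| * X ≤ R := by rwa [← le_div_iff₀ hX0]
      nlinarith [Real.pi_le_four, Real.pi_pos, abs_nonneg γ]
    calc C₂ * (X / (R * l)) * (1 + 2 * π * |γ| * X) ≤ C₂ * (X / (R * l)) * (72 * R) := by gcongr
      _ = 72 * C₂ * (X / l) := by field_simp
  obtain ⟨t, ht⟩ : ∃ t : ℤ, t = (r : ℤ) + k * q := ⟨_, rfl⟩
  have hγt : (t : ℝ) / q = β - γ := by
    rw [ht, hγ]
    push_cast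
    field_simp
    ring
  have hsplit : ∀ ⦃E : ℝ⦄, ‖(Q.totient : ℂ) * (classFactor Q a q r * geomSum X γ) - geomSum X β‖
      ≤ E → ‖(Q.totient : ℂ) * classTwist Q a X β - geomSum X β‖ ≤
        Q * (72 * C₂ * (X / l)) + E := fun E hE =>
    (norm_sub_le_norm_sub_add_norm_sub _ _ _).trans (add_le_add hmain hE)
  by_cases hdvd : q ∣ Q
  · have hqQ' : (q : ℝ) ≤ Q := Nat.cast_le.2 (Nat.le_of_dvd hQ hdvd)
    have hlt : R / X < 1 / (2 * (Q : ℝ)) := by
      rw [div_lt_div_iff₀ hX0 (by positivity)]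
      nlinarith
    have h1 : |(t : ℝ) / q| < 1 / q := by
      rw [hγt]
      refine (abs_sub β γ).trans_lt (lt_of_lt_of_le (add_lt_add_of_le_of_lt hβ
        (hγR.trans_lt hlt)) ?_)
      rw [show 1 / (2 * (Q : ℝ)) + 1 / (2 * Q) = 1 / Q by field_simp; norm_num]
      exact one_div_le_one_div_of_le (by linarith) hqQ'
    rw [abs_div, Nat.abs_cast, div_lt_div_iff_of_pos_right (by linarith)] at h1
    have ht0 : t = 0 := by
      have h2 : |t| < 1 := by exact_mod_cast h1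
      exact Int.abs_lt_one_iff.1 h2
    have hr0 : r = 0 := by
      have h2 : (q : ℤ) ∣ (r : ℤ) := ⟨-k, by linarith⟩
      rcases Nat.eq_zero_or_pos r with h | h
      · exact h
      · have := Nat.le_of_dvd h (Int.natCast_dvd_natCast.1 h2)
        omega
    subst hr0
    obtain rfl : q = 1 := by simpa using hcop
    have hβγ : γ = β := by
      rw [ht0, Int.cast_zero, zero_div] at hγt
      linarith
    have hcf : classFactor Q a (1 * 1) 0 = ((Q.totient : ℝ)⁻¹ : ℂ) := by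
      rw [ThreePrimesClasses.classFactor_eq (b := a) hQ one_pos (one_dvd Q)
        (Nat.coprime_one_left Q) (Nat.coprime_one_left 0) ha (by rw [one_mul])]
      simp [ThreePrimes.moebiusR, ThreePrimes.eAdd_zero]
    rw [one_mul] at hcf
    refine (hsplit (E := 0) (le_of_eq ?_)).trans ?_
    · rw [hβγ, hcf, ← mul_assoc, Complex.ofReal_natCast, mul_inv_cancel₀
        (Nat.cast_ne_zero.2 (Nat.totient_pos.2 hQ).ne'), one_mul, sub_self, norm_zero]
    · nlinarith [mul_nonneg (Nat.cast_nonneg (α := ℝ) Q) hXl0]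
  · have ht1 : (1 : ℝ) ≤ |(t : ℝ)| := by
      rw [← Int.cast_abs]
      refine Int.cast_one (R := ℝ) ▸ Int.cast_le.2 (Int.one_le_abs fun h0 => hdvd ?_)
      have h2 : (q : ℤ) ∣ (r : ℤ) := ⟨-k, by linarith⟩
      have h3 : q ∣ r := Int.natCast_dvd_natCast.1 h2
      rw [Nat.Coprime, Nat.gcd_eq_left h3] at hcop
      exact hcop ▸ one_dvd Q
    have hnear : R / X ≤ nearDist β := by
      have hQ2 : 1 / (2 * (Q : ℝ)) ≤ 1 / 2 := one_div_le_one_div_of_le two_pos (by linarith)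
      rw [ThreePrimes.nearDist_eq_abs (hβ.trans hQ2)]
      have h2 : |(t : ℝ) / q| ≤ |β| + |γ| := hγt ▸ abs_sub β γ
      rw [abs_div, Nat.abs_cast] at h2
      have h3 : 1 / ((Q : ℝ) * R) ≤ |(t : ℝ)| / q :=
        div_le_div₀ (abs_nonneg _) ht1 (by linarith) hqR
      have h4 : 2 * (R / X) ≤ 1 / ((Q : ℝ) * R) := by
        rw [← mul_div_assoc, div_le_div_iff₀ hX0 (by positivity)]
        nlinarith
      linarith
    have h5 := totient_mul_norm_classFactor_le hQ hq hcop ha hW hW0 hdvd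
    refine (hsplit (E := η / 2 * X + Q * (X / l)) ((norm_sub_le _ _).trans (add_le_add ?_
      (hgeom hnear)))).trans ?_
    · rw [norm_mul, norm_mul, Complex.norm_natCast, ← mul_assoc]
      refine mul_le_mul (h5.trans ?_) (norm_geomSum_le_card X γ) (norm_nonneg _) (by positivity)
      rw [div_le_div_iff₀ (Nat.cast_pos.2 hW0) two_pos]
      linarith
    · nlinarith [mul_nonneg (Nat.cast_nonneg (α := ℝ) Q) hXl0]

end FA.ShiftedPrimeDifferences
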