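import Fermat.Agent.ShiftedPrimeDifferences.Twist

/-!
# Cosine polynomials on the numbers `p - s`

For `s = ±1` and every `ε > 0` a convex combination of `cos (2 π (p - s) θ)` over finitely many
primes `p` is at least `-ε` for all `θ`: average the weighted sums over the primes `p ≡ s (mod Q)`
up to several lengths, of which at most one can be negative at a given `θ`.
-/

set_option autoImplicit false

noncomputable section

namespace FA.ShiftedPrimeDifferences

open Finset Filter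
open FA.ThreePrimes (eAdd geomSum nearDist)
open scoped Real

theorem re_eAdd (x : ℝ) : (eAdd x).re = Real.cos (2 * π * x) := by
  rw [eAdd, Complex.exp_ofReal_mul_I_re]

/-- The weighted cosine sum over the numbers `p - s`. -/
def shiftSum (Q a : ℕ) (s : ℤ) (X : ℕ) (θ : ℝ) : ℝ :=
  (Q.totient : ℝ) * ∑ n ∈ classPrimes Q a X, Real.log n * Real.cos (2 * π * ((n - s) * θ))

theorem shiftSum_eq {Q a : ℕ} {s : ℤ} (hQ : 0 < Q) (hQs : (Q : ℤ) ∣ (a : ℤ) - s) (X : ℕ)
    (θ : ℝ) : shiftSum Q a s X θ =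
      (eAdd (-(s * (θ - round ((Q : ℝ) * θ) / Q))) *
        ((Q.totient : ℂ) * primeTwist Q a X (θ - round ((Q : ℝ) * θ) / Q))).re := by
  obtain ⟨β, hβ⟩ : ∃ β : ℝ, β = θ - round ((Q : ℝ) * θ) / Q := ⟨_, rfl⟩
  rw [← hβ, shiftSum, primeTwist, mul_left_comm (eAdd _), ← Complex.ofReal_natCast,
    Complex.re_ofReal_mul, mul_sum (a := eAdd _), Complex.re_sum]
  refine congrArg _ (sum_congr rfl fun n hn => ?_)
  rw [mul_left_comm (eAdd _), Complex.re_ofReal_mul, ← ThreePrimes.eAdd_add, re_eAdd]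
  refine congrArg _ ?_
  have h1 : (Q : ℤ) ∣ (n : ℤ) - s := by
    have h2 : (Q : ℤ) ∣ (a : ℤ) - n := Nat.modEq_iff_dvd.1 (mem_classPrimes.1 hn).2.2
    have := Int.dvd_sub hQs h2
    simpa using this
  obtain ⟨t, ht⟩ := h1
  have ht' : (n : ℝ) - s = (Q : ℝ) * t := by exact_mod_cast ht
  rw [show 2 * π * (((n : ℝ) - s) * θ) =
    2 * π * (-((s : ℝ) * β) + n * β) + ((t * round ((Q : ℝ) * θ) : ℤ) : ℝ) * (2 * π) from ?_,
    Real.cos_add_int_mul_two_pi]
  have hQ' : (Q : ℝ) ≠ 0 := Nat.cast_ne_zero.2 hQ.ne'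
  rw [hβ]
  generalize round ((Q : ℝ) * θ) = R
  push_cast
  field_simp
  linear_combination (R : ℝ) * ht'

theorem neg_le_re_shift_geomSum (s : ℤ) (X : ℕ) (β : ℝ) :
    -(X : ℝ) ≤ (eAdd (-(s * β)) * geomSum X β).re := by
  have h := Complex.abs_re_le_norm (eAdd (-(s * β)) * geomSum X β)
  rw [norm_mul, ThreePrimes.norm_eAdd, one_mul] at h
  linarith [abs_le.1 (h.trans (norm_geomSum_le_card X β))]

/-- The real part is almost non-negative outside one range of `X |β|`. -/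
theorem neg_small_le_re_shift_geomSum {s : ℤ} (hs : |s| ≤ 1) {X : ℕ} (hX : 1 ≤ X) {η β : ℝ}
    (hη : 0 < η) (hβ : |β| ≤ 1 / 2) (h : (X : ℝ) * |β| ≤ η ∨ 1 / η ≤ (X : ℝ) * |β|) :
    -(16 * η * X) ≤ (eAdd (-(s * β)) * geomSum X β).re := by
  have hX1 : (1 : ℝ) ≤ X := Nat.one_le_cast.2 hX
  rcases h with h | h
  · rw [geomSum, mul_sum, Complex.re_sum]
    refine le_trans ?_ (card_nsmul_le_sum _ _ (-(16 * η)) fun n hn => ?_)
    · rw [Nat.card_Ioc, Nat.sub_zero, nsmul_eq_mul]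
      exact le_of_eq (by ring)
    rw [← ThreePrimes.eAdd_add]
    have h1 := (Complex.abs_re_le_norm (eAdd (-(s * β) + n * β) - 1)).trans
      (ThreePrimes.norm_eAdd_sub_one_le _)
    rw [Complex.sub_re, Complex.one_re] at h1
    have h2 : |-((s : ℝ) * β) + n * β| ≤ 2 * η := by
      rw [show -((s : ℝ) * β) + n * β = ((n : ℝ) - s) * β by ring, abs_mul]
      have h3 : |(n : ℝ) - s| ≤ 2 * X := by
        have hs' : |(s : ℝ)| ≤ 1 := by exact_mod_cast hs
        have hn' : (n : ℝ) ≤ X := Nat.cast_le.2 (mem_Ioc.1 hn).2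
        refine (abs_sub _ _).trans ?_
        rw [Nat.abs_cast]
        linarith
      exact (mul_le_mul_of_nonneg_right h3 (abs_nonneg β)).trans (by linarith)
    have h4 := mul_le_mul Real.pi_le_four h2 (abs_nonneg _) (by norm_num)
    linarith [abs_le.1 h1]
  · have hu : 1 / (η * X) ≤ nearDist β := by
      rw [ThreePrimes.nearDist_eq_abs hβ, ← div_div, div_le_iff₀ (by linarith), mul_comm]
      exact h
    have h1 := (Complex.abs_re_le_norm (eAdd (-(s * β)) * geomSum X β))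
    rw [norm_mul, ThreePrimes.norm_eAdd, one_mul] at h1
    have h2 := h1.trans (norm_geomSum_le_inv X (by positivity) hu)
    rw [show 1 / (2 * (1 / (η * X))) = η * X / 2 by field_simp] at h2
    nlinarith [abs_le.1 h2]

/-- A class and a modulus for `s = ±1`. -/
theorem exists_class {s : ℤ} (hs : s = 1 ∨ s = -1) {Q : ℕ} (hQ : 0 < Q) :
    ∃ a : ℕ, a.Coprime Q ∧ (Q : ℤ) ∣ (a : ℤ) - s := by
  rcases hs with rfl | rfl
  · exact ⟨1, Nat.coprime_one_left Q, by simp⟩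
  · refine ⟨Q - 1, (Nat.coprime_self_sub_left hQ).2 (Nat.coprime_one_left Q), ?_⟩
    rw [Nat.cast_sub hQ]
    simp

/-- **The cosine polynomials.** -/
theorem exists_cosine {s : ℤ} (hs : s = 1 ∨ s = -1) {ε : ℝ} (hε : 0 < ε) :
    ∃ (H : Finset ℕ) (c : ℕ → ℝ),
      (∀ h ∈ H, 0 < h ∧ ∃ p : ℕ, p.Prime ∧ (h : ℤ) = p - s) ∧ (∀ h, 0 ≤ c h) ∧
      ∑ h ∈ H, c h = 1 ∧ ∀ θ : ℝ, -ε ≤ ∑ h ∈ H, c h * Real.cos (2 * π * (h * θ)) := by
  obtain ⟨η, hη⟩ : ∃ η, η = min (ε / 100) (1 / 4) := ⟨_, rfl⟩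
  have hη0 : 0 < η := hη ▸ lt_min (by positivity) (by norm_num)
  have hη1 : η ≤ ε / 100 := hη ▸ min_le_left _ _
  have hη2 : η ≤ 1 / 4 := hη ▸ min_le_right _ _
  obtain ⟨W, hW⟩ : ∃ W, W = ⌈2 / η⌉₊ := ⟨_, rfl⟩
  obtain ⟨Q, hQdef⟩ : ∃ Q, Q = W.factorial := ⟨_, rfl⟩
  have hQ : 0 < Q := hQdef ▸ Nat.factorial_pos W
  have hWη : 2 ≤ η * W := by
    rw [mul_comm, ← div_le_iff₀ hη0, hW]
    exact Nat.le_ceil _
  obtain ⟨a, haQ, hQs⟩ := exists_class hs hQ
  have hs1 : |s| ≤ 1 := by rcases hs with rfl | rfl <;> simp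
  obtain ⟨X₀, hX₀⟩ := eventually_atTop.1 (eventually_primeTwist_approx hQ haQ
    (fun p hp hpW => hQdef ▸ Nat.dvd_factorial hp.pos hpW) hη0 hWη)
  obtain ⟨K, hK⟩ : ∃ K, K = ⌈8 / ε⌉₊ + 1 := ⟨_, rfl⟩
  have hK8 : 8 ≤ ε * K := by
    rw [mul_comm, ← div_le_iff₀ hε, hK]
    push_cast
    linarith [Nat.le_ceil (8 / ε)]
  obtain ⟨B, hB⟩ : ∃ B, B = ⌈1 / η ^ 2⌉₊ + 1 := ⟨_, rfl⟩
  have hB1 : 1 ≤ B := by omega
  obtain ⟨len, hlen⟩ : ∃ len : ℕ → ℕ, len = fun j => max X₀ 1 * B ^ j := ⟨_, rfl⟩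
  have hlen1 : ∀ j, X₀ ≤ len j ∧ 1 ≤ len j := fun j => by
    have h1 : max X₀ 1 ≤ max X₀ 1 * B ^ j := Nat.le_mul_of_pos_right _ (pow_pos (by omega) j)
    rw [hlen]
    exact ⟨(le_max_left _ _).trans h1, (le_max_right _ _).trans h1⟩
  have hmono : ∀ ⦃i j⦄, i ≤ j → len i ≤ len j := fun i j hij => by
    rw [hlen]
    exact Nat.mul_le_mul_left _ (Nat.pow_le_pow_right hB1 hij)
  have hgap : ∀ ⦃i j⦄, i < j → (len i : ℝ) ≤ η ^ 2 * len j := fun i j hij => by
    have h1 : B * len i ≤ len j := by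
      refine le_trans (le_of_eq ?_) (hmono (Nat.succ_le_of_lt hij))
      rw [hlen]
      simp only [pow_succ]
      ring
    have h2 : 1 ≤ η ^ 2 * B := by
      rw [mul_comm, ← div_le_iff₀ (by positivity), hB]
      push_cast
      linarith [Nat.le_ceil (1 / η ^ 2)]
    calc (len i : ℝ) ≤ η ^ 2 * B * len i := le_mul_of_one_le_left (Nat.cast_nonneg _) h2
      _ ≤ η ^ 2 * len j := by
          rw [mul_assoc]
          exact mul_le_mul_of_nonneg_left (by exact_mod_cast h1) (by positivity)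
  obtain ⟨hfun, hhf⟩ : ∃ f : ℕ → ℕ, f = fun n : ℕ => ((n : ℤ) - s).toNat := ⟨_, rfl⟩
  have hcast : ∀ n, n.Prime → 0 < hfun n ∧ (hfun n : ℤ) = n - s := fun n hn => by
    have := hn.two_le
    have := abs_le.1 hs1
    simp only [hhf]
    omega
  obtain ⟨w, hw⟩ : ∃ w : ℕ → ℝ, w = fun h => ∑ j ∈ range K, (Q.totient : ℝ) / len j *
      ∑ n ∈ (classPrimes Q a (len j)).filter (fun n => hfun n = h), Real.log n := ⟨_, rfl⟩
  obtain ⟨H, hH⟩ : ∃ H, H = (classPrimes Q a (len K)).image hfun := ⟨_, rfl⟩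
  have hw0 : ∀ h, 0 ≤ w h := fun h => by
    rw [hw]
    exact sum_nonneg fun j _ => mul_nonneg (by positivity)
      (sum_nonneg fun n _ => Real.log_natCast_nonneg n)
  have hsum : ∀ g : ℕ → ℝ, ∑ h ∈ H, w h * g h = ∑ j ∈ range K, (Q.totient : ℝ) / len j *
      ∑ n ∈ classPrimes Q a (len j), Real.log n * g (hfun n) := by
    intro g
    simp only [hw, sum_mul]
    rw [sum_comm]
    refine sum_congr rfl fun j hj => ?_
    rw [← sum_fiberwise_of_maps_to (s := classPrimes Q a (len j)) (t := H) (g := hfun), mul_sum]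
    · refine sum_congr rfl fun h _ => ?_
      rw [mul_assoc, sum_mul]
      refine congrArg _ (sum_congr rfl fun n hn => ?_)
      rw [(mem_filter.1 hn).2]
    · intro n hn
      rw [mem_classPrimes] at hn
      exact hH ▸ mem_image_of_mem _ (mem_classPrimes.2
        ⟨hn.1.trans (hmono (mem_range.1 hj).le), hn.2⟩)
  have hshift : ∀ θ : ℝ, ∑ h ∈ H, w h * Real.cos (2 * π * (h * θ)) =
      ∑ j ∈ range K, shiftSum Q a s (len j) θ / len j := fun θ => by
    rw [hsum fun h => Real.cos (2 * π * (h * θ))]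
    refine sum_congr rfl fun j _ => ?_
    rw [shiftSum, mul_div_right_comm]
    refine congrArg _ (sum_congr rfl fun n hn => ?_)
    have h1 : ((hfun n : ℕ) : ℝ) = (n : ℝ) - s := by
      exact_mod_cast (hcast n (mem_classPrimes.1 hn).2.1).2
    rw [h1]
  have hQ2 : (1 : ℝ) ≤ Q := Nat.one_le_cast.2 hQ
  have hlow : ∀ θ j, (eAdd (-(s * (θ - round ((Q : ℝ) * θ) / Q))) *
      geomSum (len j) (θ - round ((Q : ℝ) * θ) / Q)).re - η * len j ≤
      shiftSum Q a s (len j) θ := by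
    intro θ j
    obtain ⟨β, hβ⟩ : ∃ β : ℝ, β = θ - round ((Q : ℝ) * θ) / Q := ⟨_, rfl⟩
    have hβQ : |β| ≤ 1 / (2 * (Q : ℝ)) := by
      rw [hβ, show θ - round ((Q : ℝ) * θ) / Q = ((Q : ℝ) * θ - round ((Q : ℝ) * θ)) / Q by
        field_simp, abs_div, Nat.abs_cast, ← div_div]
      exact div_le_div_of_nonneg_right (abs_sub_round _) (by linarith)
    rw [shiftSum_eq hQ hQs, ← hβ]
    have h := (Complex.abs_re_le_norm (eAdd (-(s * β)) *
      ((Q.totient : ℂ) * primeTwist Q a (len j) β - geomSum (len j) β))).trans (le_of_eq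
        (by rw [norm_mul, ThreePrimes.norm_eAdd, one_mul])) |>.trans
      (hX₀ (len j) (hlen1 j).1 β hβQ)
    rw [mul_sub, Complex.sub_re] at h
    linarith [abs_le.1 h]
  have hL : (3 / 4 : ℝ) * K ≤ ∑ h ∈ H, w h := by
    have h := hshift 0
    simp only [mul_zero, Real.cos_zero, mul_one] at h
    rw [h]
    refine le_trans (le_of_eq ?_) (card_nsmul_le_sum _ _ (3 / 4 : ℝ) fun j _ => ?_)
    · rw [card_range, nsmul_eq_mul, mul_comm]
    have h1 := hlow 0 j
    simp only [mul_zero, round_zero, Int.cast_zero, zero_div, sub_zero, neg_zero, geomSum,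
      ThreePrimes.eAdd_zero, sum_const, Nat.card_Ioc, Nat.sub_zero, nsmul_eq_mul, mul_one,
      one_mul, Complex.natCast_re] at h1
    have h2 : (1 : ℝ) ≤ len j := Nat.one_le_cast.2 (hlen1 j).2
    rw [le_div_iff₀ (by linarith)]
    nlinarith
  have hK0 : (0 : ℝ) < K := Nat.cast_pos.2 (by omega)
  have hLpos : 0 < ∑ h ∈ H, w h := by linarith
  refine ⟨H, fun h => w h / ∑ i ∈ H, w i, fun h hh => ?_, fun h => div_nonneg (hw0 h) hLpos.le,
    ?_, fun θ => ?_⟩
  · rw [hH, mem_image] at hh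
    obtain ⟨n, hn, rfl⟩ := hh
    exact ⟨(hcast n (mem_classPrimes.1 hn).2.1).1, n, (mem_classPrimes.1 hn).2.1,
      (hcast n (mem_classPrimes.1 hn).2.1).2⟩
  · rw [← sum_div, div_self hLpos.ne']
  · simp only [div_mul_eq_mul_div, ← sum_div]
    rw [le_div_iff₀ hLpos, hshift]
    obtain ⟨β, hβ⟩ : ∃ β : ℝ, β = θ - round ((Q : ℝ) * θ) / Q := ⟨_, rfl⟩
    have hβ2 : |β| ≤ 1 / 2 := by
      rw [hβ, show θ - round ((Q : ℝ) * θ) / Q = ((Q : ℝ) * θ - round ((Q : ℝ) * θ)) / Q by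
        field_simp, abs_div, Nat.abs_cast]
      exact (div_le_self (abs_nonneg _) hQ2).trans (abs_sub_round _)
    obtain ⟨bad, hbad⟩ : ∃ bad : Finset ℕ, bad = (range K).filter
        (fun j : ℕ => η < (len j : ℝ) * |β| ∧ (len j : ℝ) * |β| < 1 / η) := ⟨_, rfl⟩
    have hone : (bad.card : ℝ) ≤ 1 := by
      refine Nat.cast_le_one.2 (card_le_one.2 fun i hi j hj => ?_)
      rw [hbad, mem_filter] at hi hj
      have key : ∀ ⦃i j⦄, i < j → η < (len i : ℝ) * |β| →
          (len j : ℝ) * |β| < 1 / η → False := by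
        intro i j hij h1 h2
        have h3 := mul_le_mul_of_nonneg_right (hgap hij) (abs_nonneg β)
        rw [lt_div_iff₀ hη0] at h2
        nlinarith [mul_lt_mul_of_pos_left h2 hη0]
      rcases lt_trichotomy i j with h | h | h
      · exact (key h hi.2.1 hj.2.2).elim
      · exact h
      · exact (key h hj.2.1 hi.2.2).elim
    have hbound : ∀ j ∈ range K,
        -(17 * η) - (if j ∈ bad then (1 : ℝ) else 0) ≤ shiftSum Q a s (len j) θ / len j := by
      intro j hj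
      have h2 : (1 : ℝ) ≤ len j := Nat.one_le_cast.2 (hlen1 j).2
      have h1 := hlow θ j
      rw [← hβ] at h1
      rw [le_div_iff₀ (by linarith)]
      split_ifs with hb
      · nlinarith [neg_le_re_shift_geomSum s (len j) β]
      · have h3 := neg_small_le_re_shift_geomSum hs1 (hlen1 j).2 hη0 hβ2 (by
          rw [hbad, mem_filter, not_and, not_and, not_lt] at hb
          exact (le_or_gt ((len j : ℝ) * |β|) η).imp_right (hb hj))
        linarith
    refine le_trans ?_ (sum_le_sum hbound)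
    rw [sum_sub_distrib, sum_const, card_range, nsmul_eq_mul, ← sum_filter,
      filter_mem_eq_inter, inter_eq_right.2 (hbad ▸ filter_subset _ _), sum_const, nsmul_eq_mul,
      mul_one]
    nlinarith

end FA.ShiftedPrimeDifferences
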