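import Fermat.Agent.ShiftedPrimeDifferences.Cosine

/-!
# The theorem of Sárközy and of Kamae and Mendès France on differences `p - 1` and `p + 1`

A set `A ⊆ [1, N]` without differences among the frequencies of a cosine polynomial that is at
least `-ε` has at most `ε M` elements for a modulus `M` slightly above `N`.
-/

set_option autoImplicit false

noncomputable section

namespace FA.ShiftedPrimeDifferences

open Finset
open FA.ThreePrimes (eAdd)
open scoped Real ComplexConjugate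

/-- The pairs of `A` at distance `h`, seen on the grid `k / M`. -/
theorem sum_grid_correlation {M h : ℕ} (A : Finset ℕ) (hA : ∀ a ∈ A, a + h < M) :
    ∑ k ∈ range M, ‖∑ a ∈ A, eAdd ((a : ℝ) * k / M)‖ ^ 2 * Real.cos (2 * π * (h * (k / M))) =
      M * (((A ×ˢ A).filter fun x => x.1 + h = x.2).card : ℝ) := by
  rcases Nat.eq_zero_or_pos M with rfl | hM
  · simp
  have e : ∀ k : ℕ, ((‖∑ a ∈ A, eAdd ((a : ℝ) * k / M)‖ ^ 2 : ℝ) : ℂ) *
      eAdd ((h : ℝ) * (k / M)) =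
      ∑ x ∈ A ×ˢ A, eAdd ((((x.1 + h : ℕ) : ℤ) - x.2 : ℤ) * k / M) := by
    intro k
    rw [Complex.ofReal_pow, ← Complex.mul_conj', map_sum, sum_mul_sum, sum_product, sum_mul]
    refine sum_congr rfl fun a _ => ?_
    rw [sum_mul]
    refine sum_congr rfl fun b _ => ?_
    rw [ThreePrimes.conj_eAdd, ← ThreePrimes.eAdd_add, ← ThreePrimes.eAdd_add]
    congr 1
    push_cast
    ring
  have key : ∑ k ∈ range M, ((‖∑ a ∈ A, eAdd ((a : ℝ) * k / M)‖ ^ 2 : ℝ) : ℂ) *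
      eAdd ((h : ℝ) * (k / M)) = (M : ℂ) * (((A ×ˢ A).filter fun x => x.1 + h = x.2).card : ℂ) := by
    simp only [e]
    rw [sum_comm, sum_congr rfl fun x _ => ThreePrimes.sum_eAdd_grid hM _, ← sum_filter,
      sum_const, nsmul_eq_mul, mul_comm]
    refine congrArg _ (congrArg _ (congrArg _ (filter_congr fun x hx => ?_)))
    rw [mem_product] at hx
    have h1 := hA _ hx.1
    have h2 := hA _ hx.2
    refine ⟨fun hd => ?_, fun hxy => by rw [hxy, sub_self]; exact dvd_zero _⟩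
    have h3 : (((x.1 + h : ℕ) : ℤ) - x.2) = 0 :=
      Int.eq_zero_of_abs_lt_dvd hd (abs_lt.2 ⟨by omega, by omega⟩)
    omega
  have := congrArg Complex.re key
  rw [Complex.re_sum] at this
  simp only [Complex.re_ofReal_mul, re_eAdd] at this
  simpa using this

/-- **A cosine polynomial bounds a set without its differences.** -/
theorem card_le_of_cosine {N : ℕ} {H A : Finset ℕ} {c : ℕ → ℝ} {ε : ℝ}
    (hA : A ⊆ Icc 1 N) (hc1 : ∑ h ∈ H, c h = 1) (hε : 0 ≤ ε)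
    (hcos : ∀ θ : ℝ, -ε ≤ ∑ h ∈ H, c h * Real.cos (2 * π * (h * θ)))
    (hfree : ∀ a ∈ A, ∀ b ∈ A, ∀ h ∈ H, a + h ≠ b) :
    (A.card : ℝ) ≤ ε * ((N : ℝ) + H.sup id + 1) := by
  obtain ⟨M, hM⟩ : ∃ M, M = N + H.sup id + 1 := ⟨_, rfl⟩
  obtain ⟨F, hF⟩ : ∃ F : ℕ → ℝ, F = fun k : ℕ => ‖∑ a ∈ A, eAdd ((a : ℝ) * k / M)‖ ^ 2 := ⟨_, rfl⟩
  have hlt : ∀ h ≤ H.sup id, ∀ a ∈ A, a + h < M := fun h hh a ha => by
    have := (mem_Icc.1 (hA ha)).2
    omega
  have h0 : ∑ k ∈ range M, F k = M * (A.card : ℝ) := by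
    have h := sum_grid_correlation (h := 0) A (hlt 0 (Nat.zero_le _))
    simp only [Nat.cast_zero, zero_mul, mul_zero, Real.cos_zero, mul_one, add_zero] at h
    rw [hF]
    refine h.trans ?_
    congr 2
    rw [show (A ×ˢ A).filter (fun x => x.1 = x.2) = A.diag from by
      ext x
      simp [mem_diag, mem_product]
      grind, diag_card]
  have hH : ∀ h ∈ H, ∑ k ∈ range M, F k * Real.cos (2 * π * (h * (k / M))) = 0 := by
    intro h hh
    rw [hF, sum_grid_correlation A (hlt h (le_sup (f := id) hh)), filter_eq_empty_iff.2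
      fun x hx => hfree _ (mem_product.1 hx).1 _ (mem_product.1 hx).2 h hh]
    simp
  have hzero : ∑ k ∈ range M, F k * ∑ h ∈ H, c h * Real.cos (2 * π * (h * (k / M))) = 0 := by
    simp only [mul_sum]
    rw [sum_comm]
    refine sum_eq_zero fun h hh => ?_
    rw [← mul_zero (c h), ← hH h hh, mul_sum]
    exact sum_congr rfl fun k _ => by ring
  have hfirst : F 0 = (A.card : ℝ) ^ 2 := by
    rw [hF]
    simp [ThreePrimes.eAdd_zero]
  have hbig : (1 + ε) * F 0 ≤ ∑ k ∈ range M, F k *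
      ((∑ h ∈ H, c h * Real.cos (2 * π * (h * ((k : ℕ) / (M : ℝ))))) + ε) := by
    refine le_trans (le_of_eq ?_)
      (single_le_sum (fun k _ => ?_) (mem_range.2 (show 0 < M by omega)))
    · simp only [Nat.cast_zero, zero_div, mul_zero, Real.cos_zero, mul_one, hc1]
      ring
    · refine mul_nonneg (by rw [hF]; exact sq_nonneg _) ?_
      linarith [hcos ((k : ℕ) / (M : ℝ))]
  simp only [mul_add, sum_add_distrib, ← sum_mul, h0, hzero, hfirst] at hbig
  rw [show ((N : ℝ) + (H.sup id : ℕ) + 1) = (M : ℝ) by rw [hM]; push_cast; ring]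
  rcases Nat.eq_zero_or_pos A.card with h | h
  · rw [h, Nat.cast_zero]
    positivity
  · have hA0 : (0 : ℝ) < A.card := Nat.cast_pos.2 h
    nlinarith

/-- **The differences `p - s`, `s = ±1`.** -/
theorem exists_difference {s : ℤ} (hs : s = 1 ∨ s = -1) {δ : ℝ} (hδ : 0 < δ) :
    ∃ N₀ : ℕ, ∀ N : ℕ, N₀ ≤ N → ∀ A : Finset ℕ, A ⊆ Icc 1 N → δ * N ≤ A.card →
      ∃ a ∈ A, ∃ b ∈ A, ∃ p : ℕ, p.Prime ∧ b < a ∧ (a : ℤ) = b + ((p : ℤ) - s) := by
  obtain ⟨H, c, hH, -, hc1, hcos⟩ := exists_cosine hs (show 0 < δ / 4 by positivity)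
  refine ⟨H.sup id + 1, fun N hN A hA hcard => ?_⟩
  by_contra hne
  have hfree : ∀ a ∈ A, ∀ b ∈ A, ∀ h ∈ H, a + h ≠ b := fun a ha b hb h hh he => by
    obtain ⟨h0, p, hp, hhp⟩ := hH h hh
    exact hne ⟨b, hb, a, ha, p, hp, by omega, by omega⟩
  have h1 := card_le_of_cosine hA hc1 (by positivity) hcos hfree
  have h2 : ((H.sup id : ℕ) : ℝ) + 1 ≤ N := by exact_mod_cast hN
  nlinarith

/-- The same with a large prime. -/
theorem exists_difference_gt {s : ℤ} (hs : s = 1 ∨ s = -1) (P : ℕ) {δ : ℝ} (hδ : 0 < δ) :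
    ∃ N₀ : ℕ, ∀ N : ℕ, N₀ ≤ N → ∀ A : Finset ℕ, A ⊆ Icc 1 N → δ * N ≤ A.card →
      ∃ a ∈ A, ∃ b ∈ A, ∃ p : ℕ, p.Prime ∧ P < p ∧ b < a ∧ (a : ℤ) = b + ((p : ℤ) - s) := by
  obtain ⟨M, hM⟩ : ∃ M, M = P + 2 := ⟨_, rfl⟩
  have hM0 : (0 : ℝ) < M := Nat.cast_pos.2 (by omega)
  obtain ⟨N₀, h⟩ := exists_difference hs (div_pos hδ hM0)
  refine ⟨N₀, fun N hN A hA hcard => ?_⟩
  obtain ⟨r, -, hr⟩ := exists_le_of_sum_le (s := range M) (nonempty_range_iff.2 (by omega))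
    (f := fun _ => δ / M * N) (g := fun r => (((A.filter fun n => n % M = r).card : ℕ) : ℝ)) (by
      rw [sum_const, card_range, nsmul_eq_mul, ← mul_assoc, mul_div_cancel₀ _ hM0.ne',
        ← Nat.cast_sum, ← card_eq_sum_card_fiberwise fun n _ =>
          mem_range.2 (Nat.mod_lt n (by omega))]
      exact hcard)
  obtain ⟨a, ha, b, hb, p, hp, hlt, e⟩ := h N hN _ ((filter_subset _ _).trans hA) hr
  rw [mem_filter] at ha hb
  refine ⟨a, ha.1, b, hb.1, p, hp, ?_, hlt, e⟩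
  have h1 : M ∣ a - b :=
    Nat.dvd_of_mod_eq_zero (Nat.sub_mod_eq_zero_of_mod_eq (ha.2.trans hb.2.symm))
  have := Nat.le_of_dvd (by omega) h1
  rcases hs with rfl | rfl <;> omega

end FA.ShiftedPrimeDifferences
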